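/-
GATE-B / B5 / AL-DESC (helper29): **descent along `B_p`** (Miyake, Lemma 4.6.5), weight 2, `Γ₀`.

`f ∈ S₂(Γ₀(L))`, `p ∣ L` prime, `a_n(f) = 0` for all `p ∤ n`  ⟹  `f(z) = f'(p z)` with
`f' ∈ S₂(Γ₀(L / p))`, `a_n(f') = a_{p n}(f)`.

* `exists_T_zpow_mul` : every `γ ∈ Γ₀(M)` is `T^i γ' T^j` with `γ' ∈ Γ₀(M)`, `p ∣ γ'₀₁`;
* `mapGL_mem_conj` : `δ γ' δ⁻¹ ∈ Γ₀(L)` for `δ = diag(1, p)`, `(L/p) ∣ γ'₁₀`, `p ∣ γ'₀₁`;
* `apply_vadd_inv` : `f(τ + 1/p) = f(τ)` when `a_n(f) = 0` for `p ∤ n`;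
* `dlt p hp : GL (Fin 2) ℝ` = `diag(1, p)`, `coe_dlt_smul : ↑(δ • τ) = τ / p`,
  `coe_dlt_inv_smul : ↑(δ⁻¹ • τ) = p τ`;
* **`exists_descent`** : `∃ f' : CuspForm (Gamma0 (L / p)) 2, (∀ τ, f' τ = f (δ • τ)) ∧
  (∀ τ, f τ = f' (δ⁻¹ • τ)) ∧ ∀ n, qCoeff f' n = qCoeff f (p * n)`.
-/
import Mathlib
import Fermat.Prelude.Def_FLTPrelim_Modularity
import Fermat.Agent.DS.Glue.LevelGlue
import Fermat.Agent.DS.N3.Deplete

set_option autoImplicit false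

noncomputable section

namespace Fermat.Agent.GB.B5.AL.Desc

open CongruenceSubgroup UpperHalfPlane ModularFormClass Matrix.SpecialLinearGroup Matrix
open scoped MatrixGroups ModularForm

/-! ### The group lemma -/

theorem T_mem_Gamma0 (M : ℕ) : ModularGroup.T ∈ Gamma0 M := by
  rw [Gamma0_mem]
  simp [ModularGroup.T]

theorem T_zpow_mem_Gamma0 (M : ℕ) (n : ℤ) : ModularGroup.T ^ n ∈ Gamma0 M :=
  Subgroup.zpow_mem _ (T_mem_Gamma0 M) n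

theorem det_eq_one' (γ : SL(2, ℤ)) : γ 0 0 * γ 1 1 - γ 0 1 * γ 1 0 = 1 := by
  have := γ.det_coe
  rw [Matrix.det_fin_two] at this
  exact this

/-- case `p ∤ a` -/
theorem exists_mul_T_zpow {p : ℕ} (hp : p.Prime) (γ : SL(2, ℤ)) (ha : ¬ (p : ℤ) ∣ γ 0 0) :
    ∃ j : ℤ, (p : ℤ) ∣ (γ * ModularGroup.T ^ j) 0 1 := by
  have hcop : IsCoprime (γ 0 0) (p : ℤ) := by
    rw [isCoprime_comm]
    exact (Nat.prime_iff_prime_int.mp hp).coprime_iff_not_dvd.mpr ha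
  obtain ⟨u, v, huv⟩ := hcop
  refine ⟨-(γ 0 1 * u), ?_⟩
  rw [Matrix.SpecialLinearGroup.coe_mul, ModularGroup.coe_T_zpow, Matrix.mul_apply,
    Fin.sum_univ_two]
  simp only [Matrix.of_apply, Matrix.cons_val', Matrix.cons_val_zero, Matrix.cons_val_one,
    Matrix.cons_val_fin_one]
  refine ⟨γ 0 1 * v, ?_⟩
  linear_combination (-(γ 0 1)) * huv

/-- **the group lemma**: `Γ₀(M) = ⟨T⟩ · (Γ₀(M) ∩ Γ⁰(p)) · ⟨T⟩` -/
theorem exists_T_zpow_mul {p : ℕ} (hp : p.Prime) (M : ℕ) (γ : SL(2, ℤ)) (hγ : γ ∈ Gamma0 M) :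
    ∃ (i j : ℤ) (γ' : SL(2, ℤ)), γ' ∈ Gamma0 M ∧ (p : ℤ) ∣ γ' 0 1 ∧
      γ = ModularGroup.T ^ i * γ' * ModularGroup.T ^ j := by
  by_cases ha : (p : ℤ) ∣ γ 0 0
  · -- then `p ∤ c`, and `T γ` has upper left entry `a + c`
    have hc : ¬ (p : ℤ) ∣ γ 1 0 := by
      intro hc
      have h1 : (p : ℤ) ∣ 1 := by
        rw [← det_eq_one' γ]
        exact dvd_sub (Dvd.dvd.mul_right ha _) (Dvd.dvd.mul_left hc _)
      exact (Nat.prime_iff_prime_int.mp hp).not_dvd_one h1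
    have ha' : ¬ (p : ℤ) ∣ (ModularGroup.T * γ) 0 0 := by
      have h00 : (ModularGroup.T * γ) 0 0 = γ 0 0 + γ 1 0 := by
        rw [Matrix.SpecialLinearGroup.coe_mul, ModularGroup.coe_T, Matrix.mul_apply,
          Fin.sum_univ_two]
        simp
      rw [h00]
      intro h
      exact hc ((dvd_add_right ha).mp h)
    obtain ⟨j, hj⟩ := exists_mul_T_zpow hp (ModularGroup.T * γ) ha'
    refine ⟨-1, -j, ModularGroup.T * γ * ModularGroup.T ^ j, ?_, hj, ?_⟩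
    · exact Subgroup.mul_mem _ (Subgroup.mul_mem _ (T_mem_Gamma0 M) hγ) (T_zpow_mem_Gamma0 M j)
    · group
  · obtain ⟨j, hj⟩ := exists_mul_T_zpow hp γ ha
    refine ⟨0, -j, γ * ModularGroup.T ^ j, ?_, hj, ?_⟩
    · exact Subgroup.mul_mem _ hγ (T_zpow_mem_Gamma0 M j)
    · group

/-! ### The matrix `δ = diag(1, p)` and conjugation -/

/-- `δ = diag(1, p)`, acting by `z ↦ z / p` -/
def dlt (p : ℕ) (hp : p ≠ 0) : GL (Fin 2) ℝ :=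
  Matrix.GeneralLinearGroup.mkOfDetNeZero !![1, 0; 0, (p : ℝ)]
    (by rw [Matrix.det_fin_two_of]; simpa using hp)

theorem dlt_entries (p : ℕ) (hp : p ≠ 0) :
    (dlt p hp : GL (Fin 2) ℝ) 0 0 = 1 ∧ (dlt p hp : GL (Fin 2) ℝ) 0 1 = 0 ∧
    (dlt p hp : GL (Fin 2) ℝ) 1 0 = 0 ∧ (dlt p hp : GL (Fin 2) ℝ) 1 1 = p := by
  simp [dlt]

theorem det_dlt (p : ℕ) (hp : p ≠ 0) : (dlt p hp).det.val = (p : ℝ) := by
  rw [Matrix.GeneralLinearGroup.val_det_apply]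
  simp [dlt, Matrix.det_fin_two_of]

/-- `δ γ' = γ₀ δ` with `γ₀ ∈ Γ₀(L)` when `(L/p) ∣ γ'₁₀` and `p ∣ γ'₀₁` -/
theorem exists_conj_dlt {L p : ℕ} (hp0 : p ≠ 0) (hpL : p ∣ L) (γ' : SL(2, ℤ))
    (h1 : ((L / p : ℕ) : ℤ) ∣ γ' 1 0) (h2 : (p : ℤ) ∣ γ' 0 1) :
    ∃ γ₀ ∈ Gamma0 L, dlt p hp0 * mapGL ℝ γ' = mapGL ℝ γ₀ * dlt p hp0 := by
  obtain ⟨c', hc'⟩ := h1
  obtain ⟨b', hb'⟩ := h2
  have hdet := det_eq_one' γ'
  have hdet' : (!![γ' 0 0, b'; (p : ℤ) * γ' 1 0, γ' 1 1] : Matrix (Fin 2) (Fin 2) ℤ).det = 1 := by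
    rw [Matrix.det_fin_two_of]
    rw [hb'] at hdet
    linear_combination hdet
  let γ₀ : SL(2, ℤ) := ⟨!![γ' 0 0, b'; (p : ℤ) * γ' 1 0, γ' 1 1], hdet'⟩
  have g00 : γ₀ 0 0 = γ' 0 0 := rfl
  have g01 : γ₀ 0 1 = b' := rfl
  have g10 : γ₀ 1 0 = (p : ℤ) * γ' 1 0 := rfl
  have g11 : γ₀ 1 1 = γ' 1 1 := rfl
  refine ⟨γ₀, ?_, ?_⟩
  · rw [Gamma0_mem, g10, hc', ZMod.intCast_zmod_eq_zero_iff_dvd]
    refine ⟨c', ?_⟩
    have hL : ((L : ℕ) : ℤ) = (p : ℤ) * ((L / p : ℕ) : ℤ) := by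
      exact_mod_cast (Nat.mul_div_cancel' hpL).symm
    rw [hL]
    ring
  · obtain ⟨u00, u01, u10, u11⟩ := dlt_entries p hp0
    ext i j
    fin_cases i <;> fin_cases j <;>
    simp only [Fin.zero_eta, Fin.mk_one, Fin.isValue, Units.val_mul, Matrix.mul_apply,
      Fin.sum_univ_two, Fermat.Agent.DS.N3.mapGL_entry, u00, u01, u10, u11, g00, g01, g10, g11,
      hb'] <;>
    push_cast <;> ring

open ConjAct Pointwise in
/-- `γ' ∈ δ⁻¹ Γ₀(L) δ` when `(L/p) ∣ γ'₁₀` and `p ∣ γ'₀₁` -/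
theorem mapGL_mem_conj {L p : ℕ} (hp0 : p ≠ 0) (hpL : p ∣ L) (γ' : SL(2, ℤ))
    (h1 : ((L / p : ℕ) : ℤ) ∣ γ' 1 0) (h2 : (p : ℤ) ∣ γ' 0 1) :
    (mapGL ℝ γ' : GL (Fin 2) ℝ) ∈
      toConjAct (dlt p hp0)⁻¹ • (Gamma0 L : Subgroup (GL (Fin 2) ℝ)) := by
  obtain ⟨γ₀, hγ₀, h⟩ := exists_conj_dlt hp0 hpL γ' h1 h2
  rw [Subgroup.mem_pointwise_smul_iff_inv_smul_mem, ← map_inv, inv_inv, ConjAct.smul_def,
    ConjAct.ofConjAct_toConjAct]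
  refine ⟨γ₀, hγ₀, ?_⟩
  show mapGL ℝ γ₀ = _
  rw [h]; group

/-- membership in `Γ₀(M)` as a divisibility -/
theorem dvd_of_mem_Gamma0 {M : ℕ} {γ : SL(2, ℤ)} (hγ : γ ∈ Gamma0 M) : (M : ℤ) ∣ γ 1 0 := by
  rw [Gamma0_mem] at hγ
  exact (ZMod.intCast_zmod_eq_zero_iff_dvd _ _).mp hγ

open ConjAct Pointwise in
/-- `Γ(L) ≤ δ⁻¹ Γ₀(L) δ` -/
theorem Gamma_le_conj {L p : ℕ} (hp0 : p ≠ 0) (hpL : p ∣ L) :
    (Gamma L : Subgroup (GL (Fin 2) ℝ)) ≤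
      toConjAct (dlt p hp0)⁻¹ • (Gamma0 L : Subgroup (GL (Fin 2) ℝ)) := by
  rintro _ ⟨γ, hγ, rfl⟩
  obtain ⟨-, h01, h10, -⟩ := Gamma_mem.mp hγ
  have hb : (L : ℤ) ∣ γ 0 1 := (ZMod.intCast_zmod_eq_zero_iff_dvd _ _).mp h01
  have hc : (L : ℤ) ∣ γ 1 0 := (ZMod.intCast_zmod_eq_zero_iff_dvd _ _).mp h10
  refine mapGL_mem_conj hp0 hpL γ ?_ ?_
  · exact (Int.natCast_dvd_natCast.mpr (Nat.div_dvd_of_dvd hpL)).trans hc
  · exact (Int.natCast_dvd_natCast.mpr hpL).trans hb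

/-! ### `q`-expansions on `Γ₀(L)` and the periodicity -/

theorem one_mem_strictPeriods_Gamma0 (L : ℕ) :
    (1 : ℝ) ∈ (Gamma0 L : Subgroup (GL (Fin 2) ℝ)).strictPeriods := by
  rw [CongruenceSubgroup.strictPeriods_Gamma0]
  exact AddSubgroup.mem_zmultiples 1

theorem hasSum_qCoeff0 {L : ℕ} {k : ℤ} (f : CuspForm (Gamma0 L) k) (τ : ℍ) :
    HasSum (fun m : ℕ => qCoeff f m • Function.Periodic.qParam 1 (τ : ℂ) ^ m) (f τ) := by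
  have hΓ := one_mem_strictPeriods_Gamma0 L
  have : Fact (IsCusp OnePoint.infty (Gamma0 L : Subgroup (GL (Fin 2) ℝ))) :=
    ⟨Subgroup.isCusp_of_mem_strictPeriods one_pos hΓ⟩
  exact UpperHalfPlane.hasSum_qExpansion one_pos
    (SlashInvariantFormClass.periodic_comp_ofComplex f hΓ) (ModularFormClass.holo f)
    (ModularFormClass.bdd_at_infty f) τ

/-- `f(τ + 1/p) = f(τ)` when only the coefficients `a_{pn}` survive -/
theorem apply_vadd_inv {L p : ℕ} (hp0 : p ≠ 0) {k : ℤ} (f : CuspForm (Gamma0 L) k)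
    (h0 : ∀ n, ¬ p ∣ n → qCoeff f n = 0) (τ : ℍ) :
    f (((p : ℝ)⁻¹) +ᵥ τ) = f τ := by
  have h1 := hasSum_qCoeff0 f (((p : ℝ)⁻¹) +ᵥ τ)
  have h2 := hasSum_qCoeff0 f τ
  refine h1.unique ?_
  convert h2 using 2 with m
  by_cases hm : p ∣ m
  · obtain ⟨n, rfl⟩ := hm
    rw [Fermat.Agent.DS.N3.qParam_vadd, mul_pow, ← Complex.exp_nat_mul]
    have hpC : (p : ℂ) ≠ 0 := Nat.cast_ne_zero.2 hp0
    have he : ((p * n : ℕ) : ℂ) * (2 * Real.pi * Complex.I * (((p : ℝ)⁻¹ : ℝ) : ℂ)) =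
        (n : ℂ) * (2 * Real.pi * Complex.I) := by
      push_cast
      field_simp
    rw [he, Complex.exp_nat_mul_two_pi_mul_I, one_mul]
  · rw [h0 m hm, zero_smul, zero_smul]

/-! ### The point `δ • τ = τ / p` -/

theorem coe_dlt_smul (p : ℕ) (hp0 : p ≠ 0) (τ : ℍ) :
    ((dlt p hp0 • τ : ℍ) : ℂ) = (τ : ℂ) / p := by
  have hpos : 0 < (dlt p hp0).det.val := by
    rw [det_dlt]; exact_mod_cast Nat.pos_of_ne_zero hp0
  obtain ⟨u00, u01, u10, u11⟩ := dlt_entries p hp0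
  rw [UpperHalfPlane.coe_smul_of_det_pos hpos]
  simp [num, denom, u00, u01, u10, u11]

theorem coe_dlt_inv_smul (p : ℕ) (hp0 : p ≠ 0) (τ : ℍ) :
    (((dlt p hp0)⁻¹ • τ : ℍ) : ℂ) = (p : ℂ) * (τ : ℂ) := by
  have h := coe_dlt_smul p hp0 ((dlt p hp0)⁻¹ • τ)
  rw [smul_smul, mul_inv_cancel, one_smul] at h
  have hpC : (p : ℂ) ≠ 0 := Nat.cast_ne_zero.2 hp0
  rw [h]
  field_simp

theorem slash_dlt_apply (p : ℕ) (hp0 : p ≠ 0) (f : ℍ → ℂ) (τ : ℍ) :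
    (f ∣[(2 : ℤ)] dlt p hp0) τ = f (dlt p hp0 • τ) * (p : ℂ)⁻¹ := by
  have hpos : 0 < (dlt p hp0).det.val := by
    rw [det_dlt]; exact_mod_cast Nat.pos_of_ne_zero hp0
  obtain ⟨u00, u01, u10, u11⟩ := dlt_entries p hp0
  have hpC : (p : ℂ) ≠ 0 := Nat.cast_ne_zero.2 hp0
  have hp' : (0 : ℝ) < p := by exact_mod_cast Nat.pos_of_ne_zero hp0
  rw [ModularForm.slash_def]
  simp only [σ, det_dlt, denom, u10, u11, if_pos hp', ContinuousAlgEquiv.refl_apply,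
    abs_of_pos hp']
  push_cast
  rw [zero_mul, zero_add, mul_assoc]
  congr 1
  rw [← zpow_add₀ hpC]
  norm_num

/-! ### Invariance of `f ∣[2] δ` under `Γ₀(L / p)` -/

/-- the stabiliser of a function under the weight-2 slash action of `GL₂(ℝ)` -/
def slashStab (g : ℍ → ℂ) : Subgroup (GL (Fin 2) ℝ) where
  carrier := {x | g ∣[(2 : ℤ)] x = g}
  mul_mem' {a b} ha hb := by
    have ha' : g ∣[(2 : ℤ)] a = g := ha
    have hb' : g ∣[(2 : ℤ)] b = g := hb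
    show g ∣[(2 : ℤ)] (a * b) = g
    rw [SlashAction.slash_mul, ha', hb']
  one_mem' := SlashAction.slash_one _ _
  inv_mem' {a} ha := by
    have ha' : g ∣[(2 : ℤ)] a = g := ha
    show g ∣[(2 : ℤ)] a⁻¹ = g
    conv_lhs => rw [← ha']
    rw [← SlashAction.slash_mul, mul_inv_cancel, SlashAction.slash_one]

theorem mem_slashStab {g : ℍ → ℂ} {x : GL (Fin 2) ℝ} :
    x ∈ slashStab g ↔ g ∣[(2 : ℤ)] x = g := Iff.rfl

theorem dlt_mul_T (p : ℕ) (hp0 : p ≠ 0) :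
    dlt p hp0 * mapGL ℝ ModularGroup.T =
      GeneralLinearGroup.upperRightHom ((p : ℝ)⁻¹) * dlt p hp0 := by
  obtain ⟨u00, u01, u10, u11⟩ := dlt_entries p hp0
  obtain ⟨v00, v01, v10, v11⟩ := Fermat.Agent.DS.N3.upperRight_entries ((p : ℝ)⁻¹)
  have hpR : (p : ℝ) ≠ 0 := Nat.cast_ne_zero.2 hp0
  ext i j
  fin_cases i <;> fin_cases j <;>
  simp only [Fin.zero_eta, Fin.mk_one, Fin.isValue, Units.val_mul, Matrix.mul_apply,
    Fin.sum_univ_two, Fermat.Agent.DS.N3.mapGL_entry, u00, u01, u10, u11, v00, v01, v10, v11,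
    ModularGroup.coe_T] <;>
  simp [hpR]

theorem mapGL_T_mem_slashStab {L p : ℕ} (hp0 : p ≠ 0) (f : CuspForm (Gamma0 L) 2)
    (h0 : ∀ n, ¬ p ∣ n → qCoeff f n = 0) :
    mapGL ℝ ModularGroup.T ∈ slashStab ((f : ℍ → ℂ) ∣[(2 : ℤ)] dlt p hp0) := by
  rw [mem_slashStab, ← SlashAction.slash_mul, dlt_mul_T, SlashAction.slash_mul]
  congr 1
  funext τ
  rw [Fermat.Agent.DS.N3.slash_upperRightHom]
  exact apply_vadd_inv hp0 f h0 τ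

theorem Gamma0_le_slashStab {L p : ℕ} (hp : p.Prime) (hpL : p ∣ L) (f : CuspForm (Gamma0 L) 2)
    (h0 : ∀ n, ¬ p ∣ n → qCoeff f n = 0) :
    (Gamma0 (L / p) : Subgroup (GL (Fin 2) ℝ)) ≤
      slashStab ((f : ℍ → ℂ) ∣[(2 : ℤ)] dlt p hp.ne_zero) := by
  rintro _ ⟨γ, hγ, rfl⟩
  obtain ⟨i, j, γ', hγ', hb, rfl⟩ := exists_T_zpow_mul hp (L / p) γ hγ
  have hT := mapGL_T_mem_slashStab hp.ne_zero f h0
  rw [map_mul, map_mul, map_zpow, map_zpow]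
  refine Subgroup.mul_mem _ (Subgroup.mul_mem _ (Subgroup.zpow_mem _ hT i) ?_)
    (Subgroup.zpow_mem _ hT j)
  rw [mem_slashStab]
  exact (CuspForm.translate f (dlt p hp.ne_zero)).slash_action_eq' _
    (mapGL_mem_conj hp.ne_zero hpL γ' (dvd_of_mem_Gamma0 hγ') hb)

/-! ### The descended form -/

/-- `f ∣[2] δ` as a cusp form on `Γ₀(L / p)` -/
def descAux {L p : ℕ} [NeZero L] (hp : p.Prime) (hpL : p ∣ L) (f : CuspForm (Gamma0 L) 2)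
    (h0 : ∀ n, ¬ p ∣ n → qCoeff f n = 0) : CuspForm (Gamma0 (L / p)) 2 where
  toFun := (f : ℍ → ℂ) ∣[(2 : ℤ)] dlt p hp.ne_zero
  slash_action_eq' _ hγ := Gamma0_le_slashStab hp hpL f h0 hγ
  holo' := (CuspForm.translate f (dlt p hp.ne_zero)).holo'
  zero_at_cusps' {c} hc := by
    have : NeZero (L / p) :=
      ⟨(Nat.div_pos (Nat.le_of_dvd (Nat.pos_of_ne_zero (NeZero.ne L)) hpL) hp.pos).ne'⟩
    have h1 : IsCusp c (Gamma L : Subgroup (GL (Fin 2) ℝ)) := by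
      rw [Subgroup.IsArithmetic.isCusp_iff_isCusp_SL2Z] at hc ⊢
      exact hc
    exact (CuspForm.translate f (dlt p hp.ne_zero)).zero_at_cusps'
      (h1.mono (Gamma_le_conj hp.ne_zero hpL))

theorem descAux_apply {L p : ℕ} [NeZero L] (hp : p.Prime) (hpL : p ∣ L)
    (f : CuspForm (Gamma0 L) 2) (h0 : ∀ n, ¬ p ∣ n → qCoeff f n = 0) (τ : ℍ) :
    descAux hp hpL f h0 τ = f (dlt p hp.ne_zero • τ) * (p : ℂ)⁻¹ :=
  slash_dlt_apply p hp.ne_zero f τ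

/-- `q`-expansion of `τ ↦ f(τ / p)` -/
theorem hasSum_desc {L p : ℕ} (hp0 : p ≠ 0) {k : ℤ} (f : CuspForm (Gamma0 L) k)
    (h0 : ∀ n, ¬ p ∣ n → qCoeff f n = 0) (τ : ℍ) :
    HasSum (fun n : ℕ => qCoeff f (p * n) • Function.Periodic.qParam 1 (τ : ℂ) ^ n)
      (f (dlt p hp0 • τ)) := by
  have h := hasSum_qCoeff0 f (dlt p hp0 • τ)
  have hinj : Function.Injective (fun n : ℕ => p * n) :=
    mul_right_injective₀ hp0
  have hz : ∀ m ∉ Set.range (fun n : ℕ => p * n),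
      qCoeff f m • Function.Periodic.qParam 1 ((dlt p hp0 • τ : ℍ) : ℂ) ^ m = 0 := by
    intro m hm
    rw [h0 m (fun ⟨n, hn⟩ => hm ⟨n, hn.symm⟩), zero_smul]
  have h' := (hinj.hasSum_iff hz).mpr h
  convert h' using 2 with n
  simp only [Function.comp]
  congr 1
  rw [coe_dlt_smul, pow_mul]
  congr 1
  have hpC : (p : ℂ) ≠ 0 := Nat.cast_ne_zero.2 hp0
  rw [Function.Periodic.qParam, Function.Periodic.qParam, ← Complex.exp_nat_mul]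
  congr 1
  push_cast
  field_simp

/-- **AL-DESC (Miyake 4.6.5).**  A cusp form on `Γ₀(L)` whose `q`-expansion is supported on the
multiples of a prime `p ∣ L` is `f'(p z)` for a cusp form `f'` on `Γ₀(L / p)`. -/
theorem exists_descent {L p : ℕ} [NeZero L] (hp : p.Prime) (hpL : p ∣ L)
    (f : CuspForm (Gamma0 L) 2) (h0 : ∀ n, ¬ p ∣ n → qCoeff f n = 0) :
    ∃ f' : CuspForm (Gamma0 (L / p)) 2,
      (∀ τ : ℍ, f' τ = f (dlt p hp.ne_zero • τ)) ∧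
      (∀ τ : ℍ, f τ = f' ((dlt p hp.ne_zero)⁻¹ • τ)) ∧
      ∀ n, qCoeff f' n = qCoeff f (p * n) := by
  have hpC : (p : ℂ) ≠ 0 := Nat.cast_ne_zero.2 hp.ne_zero
  have happ : ∀ τ : ℍ, ((p : ℂ) • descAux hp hpL f h0) τ = f (dlt p hp.ne_zero • τ) := by
    intro τ
    show (p : ℂ) • descAux hp hpL f h0 τ = _
    rw [descAux_apply, smul_eq_mul]
    field_simp
  refine ⟨(p : ℂ) • descAux hp hpL f h0, happ, ?_, ?_⟩
  · intro τ
    rw [happ, smul_smul, mul_inv_cancel, one_smul]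
  · intro n
    have hsum : ∀ τ : ℍ, HasSum (fun m : ℕ => qCoeff f (p * m) •
        Function.Periodic.qParam 1 (τ : ℂ) ^ m) (((p : ℂ) • descAux hp hpL f h0) τ) := by
      intro τ
      rw [happ]
      exact hasSum_desc hp.ne_zero f h0 τ
    have hu := ModularFormClass.qExpansion_coeff_unique
      (f := (p : ℂ) • descAux hp hpL f h0) one_pos
      (one_mem_strictPeriods_Gamma0 (L / p)) hsum n
    rw [qCoeff, ← hu]

end Fermat.Agent.GB.B5.AL.Desc
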